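/-
Programme MW (S17), brick NC-A (NORTH-C(a), function-field level), helper61's half, file 1:
THE PLACE `∞` OF `F = FF N = ℚbar · F₀ ⊆ ℚbar((q))`.

* `inftyPlace N : Place ℚbar (FF N)`: the place cut out by the inclusion `FF N ⊆ ℚbar((q))`
  (`ord_∞ f = order of the Laurent series f`, `inftyPlace_ord`);
* `smul_inftyPlace`: it is fixed by the arithmetic Galois action of `Gal(ℚbar/ℚ)`;
* `deg_inftyPlace`: it has degree one;
* `ord_inftyPlace_jF`: `ord_∞ j = -1`.
-/
import Mathlib
import Fermat.Agent.ES.N34.ModEqBar23
import Fermat.Agent.ES.P36.JDict26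
import Fermat.Agent.X0.HasCanDivInst

set_option autoImplicit false
set_option linter.unusedSectionVars false

open AlgebraicCurve ModularCurve
open Fermat.Agent.X0 Fermat.Agent.X0.FF

noncomputable section

namespace Fermat.Agent.MW.NCA61.InfPlace

open Fermat.Agent.ES.N34.ModEqBar23

/-! ### Coefficientwise injective maps preserve the order -/

theorem order_coeffMap_of_injective {R S : Type*} [CommRing R] [CommRing S] (φ : R →+* S)
    (hφ : Function.Injective φ) (x : LaurentSeries R) : (coeffMap φ x).order = x.order := by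
  have hsupp : ∀ n, (coeffMap φ x).coeff n ≠ 0 ↔ x.coeff n ≠ 0 := fun n => by
    rw [coeffMap_coeff]
    exact (map_ne_zero_iff φ hφ)
  by_cases hx : x = 0
  · subst hx
    rw [map_zero, HahnSeries.order_zero, HahnSeries.order_zero]
  · have hy : coeffMap φ x ≠ 0 := by
      intro hy
      apply hx
      ext n
      have := (hsupp n).not
      simp only [not_not] at this
      simpa using this.mp (by rw [hy]; simp)
    apply le_antisymm
    · exact HahnSeries.order_le_of_coeff_ne_zero
        ((hsupp _).mpr (fun h0 => hx (HahnSeries.coeff_order_eq_zero.mp h0)))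
    · exact HahnSeries.order_le_of_coeff_ne_zero
        ((hsupp _).mp (fun h0 => hy (HahnSeries.coeff_order_eq_zero.mp h0)))

variable (N : ℕ) [NeZero N]

/-- The canonical-divisor instance of `FF N` (a `Prop`-class, so harmless as a global instance). -/
instance instHasCanonicalDivisorFF : HasCanonicalDivisor (K := Kbar) (F := FF N) :=
  HasCanDivInst.hasCanonicalDivisor N

/-! ### The place -/

theorem jF_ne_zero : jF N ≠ 0 := (HasCanDivInst.isGen N).ne_zero

theorem order_valHom_jF : (valHom N (jF N)).order = -1 := by
  rw [valHom_apply, coe_jF]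
  exact Fermat.Agent.ES.P36.JDict26.order_jqK

theorem exists_order_ne_zero : ∃ f : FF N, f ≠ 0 ∧ (valHom N f).order ≠ 0 :=
  ⟨jF N, jF_ne_zero N, by rw [order_valHom_jF]; decide⟩

/-- **The place `∞`** of `FF N`: the `q`-expansion place. -/
def inftyPlace : Place Kbar (FF N) :=
  LaurentPlace.embPlace (valHom N) (valHom_const N) (exists_order_ne_zero N)

/-- `ord_∞ f` is the order of the Laurent series `f`. -/
theorem inftyPlace_ord {f : FF N} (hf : f ≠ 0) :
    (inftyPlace N).ord f = (f : LaurentSeries Kbar).order :=
  embPlace_ord_eq (valHom N) (valHom_const N) (exists_order_ne_zero N) (jF_ne_zero N)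
    (order_valHom_jF N) hf

theorem mem_inftyPlace_iff {f : FF N} (hf : f ≠ 0) :
    f ∈ (inftyPlace N).toValuationSubring ↔ 0 ≤ (f : LaurentSeries Kbar).order :=
  LaurentPlace.mem_embPlace_iff (valHom N) (valHom_const N) (exists_order_ne_zero N) hf

theorem ord_inftyPlace_jF : (inftyPlace N).ord (jF N) = -1 := by
  rw [inftyPlace_ord N (jF_ne_zero N), coe_jF]
  exact Fermat.Agent.ES.P36.JDict26.order_jqK

theorem deg_inftyPlace : (inftyPlace N).deg = 1 :=
  Fermat.Agent.X0.FF.deg_eq_one (HasCanDivInst.isGen N) (inftyPlace N)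

/-! ### Galois invariance -/

/-- The arithmetic Galois action preserves the order of the `q`-expansion. -/
theorem order_smul (σ : Kbar ≃ₐ[ℚ] Kbar) (f : FF N) :
    ((arithmeticGalois (modularFunctionFieldFull N) σ • f : FF N) : LaurentSeries Kbar).order =
      (f : LaurentSeries Kbar).order := by
  rw [coe_arithmeticGalois_smul]
  exact order_coeffMap_of_injective _ (σ : Kbar →+* Kbar).injective _

/-- **`∞` is fixed by `Gal(ℚbar/ℚ)`.** -/
theorem smul_inftyPlace (σ : Kbar ≃ₐ[ℚ] Kbar) :
    arithmeticGalois (modularFunctionFieldFull N) σ • inftyPlace N = inftyPlace N := by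
  apply Place.ext
  rw [SemilinearAut.smul_toValuationSubring]
  ext f
  rw [ValuationSubring.mem_pointwise_smul_iff_inv_smul_mem]
  by_cases hf : f = 0
  · subst hf
    simp only [smul_zero, zero_mem]
  · have hf' : (arithmeticGalois (modularFunctionFieldFull N) σ)⁻¹ • f ≠ 0 := by
      intro h
      apply hf
      have := congrArg (fun z => arithmeticGalois (modularFunctionFieldFull N) σ • z) h
      simpa using this
    rw [mem_inftyPlace_iff N hf, mem_inftyPlace_iff N hf', ← map_inv, order_smul]

end Fermat.Agent.MW.NCA61.InfPlace
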