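/-
Programme MW (S17), brick NC-A (NORTH-C(a)), helper61's half, file 2:
DESCENT OF `L(n∞)` TO `ℚ` AND EXISTENCE OF THE COORDINATE `t`.

* `smul_mem_riemannRochSpace_of_smul_eq`: `L(D)` is stable under a semilinear automorphism
  fixing the divisor `D`;
* `coeffSeq n : FF N →ₗ[ℚbar] (ℕ → ℚbar)`, `f ↦ (k ↦ coeff_{k-n} f)`, injective on `L(n∞)` and
  Galois-equivariant;
* `exists_rational_basis_L`: `L(n∞)` has a `ℚbar`-basis of functions with RATIONAL `q`-expansion
  coefficients (RREF descent `S23.Descent.exists_rational_basis`);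
* `exists_coordinate`: there is `t ∈ FF N`, fixed by `Gal(ℚbar/ℚ)`, transcendental over `ℚbar`
  (hence `IsGen ℚbar t`), whose only pole is `∞`.
-/
import Mathlib
import Fermat.Agent.MW.NCA61.InfPlace
import Fermat.Agent.S23.Descent
import Fermat.Agent.S23.GaloisReg
import Fermat.Agent.S23.RegSpace
import Fermat.Agent.RR.RRMain

set_option autoImplicit false
set_option linter.unusedSectionVars false
set_option linter.style.haveILetI false

open AlgebraicCurve ModularCurve Module
open Fermat.Agent.X0 Fermat.Agent.X0.FF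

noncomputable section

namespace Fermat.Agent.MW.NCA61.Descent

open Fermat.Agent.MW.NCA61.InfPlace

/-! ### `L(D)` is stable under automorphisms fixing `D` -/

section Generic

variable {K F : Type*} [Field K] [Field F] [Algebra K F]

theorem smul_mem_riemannRochSpace_of_smul_eq (g : SemilinearAut K F) {D : Divisor K F}
    (hD : g • D = D) {f : F} (hf : f ∈ riemannRochSpace D) : g • f ∈ riemannRochSpace D := by
  rw [mem_riemannRochSpace_iff] at hf ⊢
  intro v
  obtain ⟨w, rfl⟩ : ∃ w, g • w = v := ⟨g⁻¹ • v, smul_inv_smul g v⟩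
  rcases hf w with h0 | h1
  · left
    rw [h0, smul_zero]
  · right
    have hDw : D (g • w) = D w := by
      conv_lhs => rw [← hD]
      exact SemilinearAut.divisor_smul_apply_smul g D w
    rw [hDw, SemilinearAut.ord_smul]
    exact h1

end Generic

variable (N : ℕ) [NeZero N]

local notation "gal" => arithmeticGalois (modularFunctionFieldFull N)

/-- The divisor `n · ∞`. -/
def nInfty (n : ℕ) : Divisor Kbar (FF N) := Finsupp.single (inftyPlace N) (n : ℤ)

theorem smul_nInfty (σ : Kbar ≃ₐ[ℚ] Kbar) (n : ℕ) : gal σ • nInfty N n = nInfty N n := by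
  rw [nInfty, SemilinearAut.smul_single, smul_inftyPlace]

theorem smul_mem_L (σ : Kbar ≃ₐ[ℚ] Kbar) (n : ℕ) {f : FF N}
    (hf : f ∈ riemannRochSpace (nInfty N n)) : gal σ • f ∈ riemannRochSpace (nInfty N n) :=
  smul_mem_riemannRochSpace_of_smul_eq (gal σ) (smul_nInfty N σ n) hf

theorem degree_nInfty (n : ℕ) : Divisor.degree (nInfty N n) = n := by
  rw [nInfty, Divisor.degree_single, deg_inftyPlace]
  simp

/-- Elements of `L(n∞)` have `q`-expansion order at least `-n`. -/
theorem order_ge_of_mem_L {n : ℕ} {f : FF N} (hf : f ∈ riemannRochSpace (nInfty N n))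
    (hf0 : f ≠ 0) : -(n : ℤ) ≤ (f : LaurentSeries Kbar).order := by
  rw [mem_riemannRochSpace_iff] at hf
  rcases hf (inftyPlace N) with h0 | h1
  · exact absurd h0 hf0
  · rw [inftyPlace_ord N hf0, nInfty, Finsupp.single_eq_same] at h1
    exact h1

/-- Elements of `L(n∞)` are regular away from `∞`. -/
theorem ord_nonneg_of_mem_L {n : ℕ} {f : FF N} (hf : f ∈ riemannRochSpace (nInfty N n))
    (v : Place Kbar (FF N)) (hv : v ≠ inftyPlace N) : 0 ≤ v.ord f := by
  rw [mem_riemannRochSpace_iff] at hf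
  rcases hf v with h0 | h1
  · rw [h0, Place.ord_zero]
  · rw [nInfty, Finsupp.single_eq_of_ne (Ne.symm hv.symm), neg_zero] at h1
    exact h1

/-! ### The coefficient sequence -/

/-- `f ↦ (k ↦ coeff_{k-n} f)`. -/
def coeffSeq (n : ℕ) : FF N →ₗ[Kbar] (ℕ → Kbar) where
  toFun f k := (f : LaurentSeries Kbar).coeff ((k : ℤ) - n)
  map_add' f g := by
    funext k
    simp
  map_smul' a f := by
    funext k
    show ((a • f : FF N) : LaurentSeries Kbar).coeff ((k : ℤ) - n) =
      a * (f : LaurentSeries Kbar).coeff ((k : ℤ) - n)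
    rw [Fermat.Agent.S23.RegSpace.coe_smul_FF, HahnSeries.C_mul_eq_smul, HahnSeries.coeff_smul,
      smul_eq_mul]

theorem coeffSeq_apply (n : ℕ) (f : FF N) (k : ℕ) :
    coeffSeq N n f k = (f : LaurentSeries Kbar).coeff ((k : ℤ) - n) := rfl

theorem coeffSeq_smul (n : ℕ) (σ : Kbar ≃ₐ[ℚ] Kbar) (f : FF N) (k : ℕ) :
    coeffSeq N n (gal σ • f) k = σ (coeffSeq N n f k) := by
  rw [coeffSeq_apply, coeffSeq_apply, coe_arithmeticGalois_smul, coeffMap_coeff]
  rfl

/-- `coeffSeq n` is injective on `L(n∞)`. -/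
theorem coeffSeq_eq_zero {n : ℕ} {f : FF N} (hf : f ∈ riemannRochSpace (nInfty N n))
    (h : coeffSeq N n f = 0) : f = 0 := by
  by_contra hf0
  have hord := order_ge_of_mem_L N hf hf0
  have hne : (f : LaurentSeries Kbar) ≠ 0 := fun h0 => hf0 (Subtype.ext h0)
  have hc : (f : LaurentSeries Kbar).coeff (f : LaurentSeries Kbar).order ≠ 0 :=
    fun h0 => hne (HahnSeries.coeff_order_eq_zero.mp h0)
  apply hc
  have hk : 0 ≤ (f : LaurentSeries Kbar).order + n := by omega
  have := congrFun h ((f : LaurentSeries Kbar).order + n).toNat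
  rw [coeffSeq_apply, Int.toNat_of_nonneg hk, add_sub_cancel_right] at this
  exact this

/-- A function in `L(n∞)` whose coefficient sequence is rational has rational `q`-expansion. -/
theorem rational_of_coeffSeq {n : ℕ} {f : FF N} (hf : f ∈ riemannRochSpace (nInfty N n))
    (e : ℕ → ℚ) (he : coeffSeq N n f = fun k => algebraMap ℚ Kbar (e k)) (m : ℤ) :
    ∃ r : ℚ, (f : LaurentSeries Kbar).coeff m = algebraMap ℚ Kbar r := by
  by_cases hf0 : f = 0
  · exact ⟨0, by rw [hf0]; simp⟩
  by_cases hm : -(n : ℤ) ≤ m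
  · have hk : 0 ≤ m + n := by omega
    have := congrFun he (m + n).toNat
    rw [coeffSeq_apply, Int.toNat_of_nonneg hk, add_sub_cancel_right] at this
    exact ⟨_, this⟩
  · refine ⟨0, ?_⟩
    rw [map_zero]
    apply HahnSeries.coeff_eq_zero_of_lt_order
    have := order_ge_of_mem_L N hf hf0
    omega

/-- A function with rational `q`-expansion is fixed by `Gal(ℚbar/ℚ)`. -/
theorem smul_eq_self_of_rational {f : FF N}
    (hf : ∀ m : ℤ, ∃ r : ℚ, (f : LaurentSeries Kbar).coeff m = algebraMap ℚ Kbar r)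
    (σ : Kbar ≃ₐ[ℚ] Kbar) : gal σ • f = f := by
  apply Subtype.ext
  rw [coe_arithmeticGalois_smul]
  exact Fermat.Agent.S23.GaloisReg.coeffMap_eq_self_of_rat σ _ hf

/-! ### Rational bases -/

/-- **Descent of `L(n∞)`**: there is a finite family of Galois-fixed functions spanning `L(n∞)`. -/
theorem exists_fixed_spanning (n : ℕ)
    [FiniteDimensional Kbar (riemannRochSpace (nInfty N n))] :
    ∃ (κ : Type) (_ : Fintype κ) (t : κ → FF N),
      (∀ k, t k ∈ riemannRochSpace (nInfty N n)) ∧
      (∀ k (σ : Kbar ≃ₐ[ℚ] Kbar), gal σ • t k = t k) ∧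
      Submodule.span Kbar (Set.range t) = riemannRochSpace (nInfty N n) := by
  classical
  set Ln := riemannRochSpace (nInfty N n) with hLn
  set V : Submodule Kbar (ℕ → Kbar) := Ln.map (coeffSeq N n) with hV
  haveI : FiniteDimensional Kbar V := by
    rw [hV]
    exact Module.Finite.map Ln (coeffSeq N n)
  have hstab : ∀ σ : Kbar ≃ₐ[ℚ] Kbar, ∀ v ∈ V, (fun k => σ • v k) ∈ V := by
    rintro σ _ ⟨f, hf, rfl⟩
    refine ⟨gal σ • f, smul_mem_L N σ n hf, ?_⟩
    funext k
    exact coeffSeq_smul N n σ f k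
  obtain ⟨κ, hκ, e, heV, -, hspan, -⟩ :=
    Fermat.Agent.S23.Descent.exists_rational_basis (K := ℚ) (L := Kbar)
      (G := Kbar ≃ₐ[ℚ] Kbar)
      (fun x hx => by
        obtain ⟨r, hr⟩ := Fermat.Agent.S23.GaloisReg.rat_of_fixed x hx
        exact ⟨r, hr.symm⟩) V hstab
  -- lift the basis to `L(n∞)`
  have hex : ∀ k, ∃ f : FF N, f ∈ Ln ∧ coeffSeq N n f = fun m => algebraMap ℚ Kbar (e k m) :=
    fun k => heV k
  choose t htL ht using hex
  refine ⟨κ, hκ, t, htL, fun k σ => ?_, ?_⟩
  · exact smul_eq_self_of_rational N (rational_of_coeffSeq N (htL k) (e k) (ht k)) σ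
  · apply le_antisymm
    · rw [Submodule.span_le]
      rintro _ ⟨k, rfl⟩
      exact htL k
    · intro f hf
      have hfV : coeffSeq N n f ∈ V := ⟨f, hf, rfl⟩
      rw [← hspan] at hfV
      -- `coeffSeq f` is a combination of the `coeffSeq (t k)`
      have hrange : (Set.range fun k => (fun m => algebraMap ℚ Kbar (e k m) : ℕ → Kbar)) =
          (coeffSeq N n) '' (Set.range t) := by
        ext y
        constructor
        · rintro ⟨k, rfl⟩
          exact ⟨t k, ⟨k, rfl⟩, ht k⟩
        · rintro ⟨_, ⟨k, rfl⟩, rfl⟩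
          exact ⟨k, (ht k).symm⟩
      rw [hrange, ← Submodule.map_span] at hfV
      obtain ⟨f', hf', hff'⟩ := hfV
      have hf'L : f' ∈ Ln := by
        have : Submodule.span Kbar (Set.range t) ≤ Ln := by
          rw [Submodule.span_le]
          rintro _ ⟨k, rfl⟩
          exact htL k
        exact this hf'
      have hsub : f' - f ∈ Ln := Ln.sub_mem hf'L hf
      have h0 : coeffSeq N n (f' - f) = 0 := by rw [map_sub, hff', sub_self]
      have := coeffSeq_eq_zero N hsub h0
      rw [sub_eq_zero] at this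
      rw [← this]
      exact hf'

/-! ### The coordinate `t` -/

/-- **Existence of the coordinate**: a Galois-fixed nonconstant function whose only pole is `∞`. -/
theorem exists_coordinate :
    ∃ t : FF N, (∀ σ : Kbar ≃ₐ[ℚ] Kbar, gal σ • t = t) ∧ IsGen Kbar t ∧
      ∀ v : Place Kbar (FF N), v ≠ inftyPlace N → 0 ≤ v.ord t := by
  classical
  have hx := HasCanDivInst.isGen N
  set g := genus Kbar (FF N) with hg
  set n : ℕ := 2 * g + 1 with hn
  haveI : FiniteDimensional Kbar (riemannRochSpace (nInfty N n)) :=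
    Fermat.Agent.RR.RRMain.finiteDimensional_L hx _
  have hdim : (finrank Kbar (riemannRochSpace (nInfty N n)) : ℤ) = (n : ℤ) + 1 - g := by
    have := Fermat.Agent.RR.RRMain.finrank_L_of_degree_gt hx (nInfty N n)
      (by rw [degree_nInfty]; push_cast [hn]; omega)
    rw [degree_nInfty] at this
    exact this
  have hdim2 : 2 ≤ finrank Kbar (riemannRochSpace (nInfty N n)) := by
    have : (2 : ℤ) ≤ finrank Kbar (riemannRochSpace (nInfty N n)) := by
      rw [hdim]; push_cast [hn]; omega
    exact_mod_cast this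
  obtain ⟨κ, hκ, t, htL, htσ, hspan⟩ := exists_fixed_spanning N n
  -- some `t k` is not a constant
  have hex : ∃ k, ¬ IsAlgebraic Kbar (t k) := by
    by_contra hall
    push Not at hall
    have hle : riemannRochSpace (nInfty N n) ≤ Submodule.span Kbar {(1 : FF N)} := by
      rw [← hspan, Submodule.span_le]
      rintro _ ⟨k, rfl⟩
      obtain ⟨c, hc⟩ := eq_algebraMap_of_isAlgebraic (hall k)
      rw [SetLike.mem_coe, Submodule.mem_span_singleton]
      exact ⟨c, by rw [hc, Algebra.smul_def, mul_one]⟩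
    have h1 := Submodule.finrank_mono hle
    have h2 : finrank Kbar (Submodule.span Kbar {(1 : FF N)}) ≤ 1 :=
      (finrank_span_le_card ({(1 : FF N)} : Set (FF N))).trans (by simp)
    omega
  obtain ⟨k, hk⟩ := hex
  exact ⟨t k, htσ k, hx.of_transcendental hk,
    fun v hv => ord_nonneg_of_mem_L N (htL k) v hv⟩

end Fermat.Agent.MW.NCA61.Descent
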