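/-
Programme MW (S17), brick NC-A (NORTH-C(a)), helper61's half, file 3:
VALUES OF THE COORDINATE `t` AT THE PLACES `≠ ∞`, GALOIS EQUIVARIANCE, FINITE FIBRES, DEGREES.

For `t : FF N` with `IsGen ℚbar t`, fixed by `Gal(ℚbar/ℚ)` and regular away from `∞`
(`Descent.exists_coordinate`):

* `tval ht hreg v hv : ℚbar`, the value `t(v)` at a place `v ≠ ∞`;
* `tval_smul`: `t(σ v) = σ (t(v))`;
* `tval_eq_iff`: `t(v) = c ↔ 0 < ord_v (t - c)`;
* `finite_fibre`: finitely many places with a given value;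
* `natDegree_minpoly_le`: an algebraic number all of whose conjugates lie in a finite set `T` has
  degree `≤ #T`;
* `natDegree_minpoly_tval_le`: if `v` lies in a finite Galois-stable set `T` of places `≠ ∞`, then
  `[ℚ(t(v)) : ℚ] ≤ #T`.
-/
import Mathlib
import Fermat.Agent.MW.NCA61.InfPlace
import Fermat.Agent.ES.RED.PlaceValue13
import Fermat.Agent.X0.FFSum

set_option autoImplicit false
set_option linter.unusedSectionVars false
set_option linter.style.haveILetI false

open AlgebraicCurve ModularCurve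
open Fermat.Agent.X0 Fermat.Agent.X0.FF

noncomputable section

namespace Fermat.Agent.MW.NCA61.Values

open Fermat.Agent.MW.NCA61.InfPlace Fermat.Agent.ES.RED.PlaceValue13

variable {N : ℕ} [NeZero N]

local notation "gal" => arithmeticGalois (modularFunctionFieldFull N)

/-! ### Places different from `∞` -/

theorem smul_ne_infty (σ : Kbar ≃ₐ[ℚ] Kbar) {v : Place Kbar (FF N)} (hv : v ≠ inftyPlace N) :
    gal σ • v ≠ inftyPlace N := by
  intro h
  apply hv
  have := congrArg (fun w => (gal σ)⁻¹ • w) h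
  simp only [inv_smul_smul] at this
  rw [this, ← map_inv, smul_inftyPlace]

variable {t : FF N} (ht : IsGen Kbar t)
  (hreg : ∀ v : Place Kbar (FF N), v ≠ inftyPlace N → 0 ≤ v.ord t)

include hreg in
theorem t_mem (v : Place Kbar (FF N)) (hv : v ≠ inftyPlace N) : t ∈ v.toValuationSubring :=
  Fermat.Agent.X0.FF.mem_of_ord_nonneg v (hreg v hv)

/-- **The value `t(v)`** at a place `v ≠ ∞`. -/
def tval (v : Place Kbar (FF N)) (hv : v ≠ inftyPlace N) : Kbar :=
  valueHom ht v ⟨t, t_mem hreg v hv⟩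

theorem tval_eq_iff (v : Place Kbar (FF N)) (hv : v ≠ inftyPlace N) (c : Kbar) :
    tval ht hreg v hv = c ↔ 0 < v.ord (t - algebraMap Kbar (FF N) c) := by
  rw [tval, valueHom_eq_iff]
  constructor
  · rintro (h | h)
    · exfalso
      apply ht.transcendental
      have h' : t = algebraMap Kbar (FF N) c := h
      rw [h']
      exact isAlgebraic_algebraMap c
    · exact h
  · exact fun h => Or.inr h

theorem valueHom_congr_elem (v : Place Kbar (FF N)) {f f' : FF N}
    (hf : f ∈ v.toValuationSubring) (hf' : f' ∈ v.toValuationSubring) (h : f = f') :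
    valueHom ht v ⟨f, hf⟩ = valueHom ht v ⟨f', hf'⟩ := by
  subst h
  rfl

include hreg in
theorem smul_t_mem (σ : Kbar ≃ₐ[ℚ] Kbar) (v : Place Kbar (FF N)) (hv : v ≠ inftyPlace N) :
    gal σ • t ∈ (gal σ • v).toValuationSubring :=
  smul_mem_smul (gal σ) v (t_mem hreg v hv)

/-- the value rule for `t`, before using that `t` is fixed. -/
theorem valueHom_smul_t (σ : Kbar ≃ₐ[ℚ] Kbar) (v : Place Kbar (FF N)) (hv : v ≠ inftyPlace N)
    (h1 : gal σ • t ∈ (gal σ • v).toValuationSubring) :
    valueHom ht (gal σ • v) ⟨gal σ • t, h1⟩ = σ (valueHom ht v ⟨t, t_mem hreg v hv⟩) := by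
  have h := valueHom_smul' ht (gal σ) v (t_mem hreg v hv)
  rw [baseAut_arithmeticGalois] at h
  exact h

theorem valueHom_t_eq (hfix : ∀ σ : Kbar ≃ₐ[ℚ] Kbar, gal σ • t = t) (σ : Kbar ≃ₐ[ℚ] Kbar)
    (v : Place Kbar (FF N)) (h1 : gal σ • t ∈ (gal σ • v).toValuationSubring)
    (h2 : t ∈ (gal σ • v).toValuationSubring) :
    valueHom ht (gal σ • v) ⟨t, h2⟩ = valueHom ht (gal σ • v) ⟨gal σ • t, h1⟩ :=
  valueHom_congr_elem ht (gal σ • v) h2 h1 (hfix σ).symm

/-- **Galois equivariance of the values**: `t(σ v) = σ (t(v))`. -/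
theorem tval_smul (hfix : ∀ σ : Kbar ≃ₐ[ℚ] Kbar, gal σ • t = t) (σ : Kbar ≃ₐ[ℚ] Kbar)
    (v : Place Kbar (FF N)) (hv : v ≠ inftyPlace N) :
    tval ht hreg (gal σ • v) (smul_ne_infty σ hv) = σ (tval ht hreg v hv) :=
  (valueHom_t_eq ht hfix σ v (smul_t_mem hreg σ v hv) _).trans
    (valueHom_smul_t ht hreg σ v hv (smul_t_mem hreg σ v hv))

/-- **Finite fibres**: finitely many places `v ≠ ∞` with `t(v) = c`. -/
theorem finite_fibre (c : Kbar) :
    {v : Place Kbar (FF N) | ∃ hv : v ≠ inftyPlace N, tval ht hreg v hv = c}.Finite := by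
  have htc : IsGen Kbar (t - algebraMap Kbar (FF N) c) := by
    apply ht.of_transcendental
    intro h
    apply ht.transcendental
    have := h.add (isAlgebraic_algebraMap (R := Kbar) (A := FF N) c)
    rwa [sub_add_cancel] at this
  refine (Fermat.Agent.X0.FF.finite_zeros htc).subset ?_
  rintro v ⟨hv, h⟩
  exact (tval_eq_iff ht hreg v hv c).1 h

/-! ### Degrees of algebraic numbers with few conjugates -/

/-- An algebraic number all of whose conjugates lie in the finite set `T` has degree `≤ #T`. -/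
theorem natDegree_minpoly_le (a : Kbar) (T : Finset Kbar)
    (hT : ∀ σ : Kbar ≃ₐ[ℚ] Kbar, σ a ∈ T) : (minpoly ℚ a).natDegree ≤ T.card := by
  classical
  haveI : Algebra.IsAlgebraic ℚ Kbar := AlgebraicClosure.isAlgebraic ℚ
  haveI : Normal ℚ Kbar := normal_iff.mpr fun x =>
    ⟨(Algebra.IsAlgebraic.isAlgebraic x).isIntegral, IsAlgClosed.splits _⟩
  have ha : IsAlgebraic ℚ a := Algebra.IsAlgebraic.isAlgebraic a
  have hsep : (minpoly ℚ a).Separable := (minpoly.irreducible ha.isIntegral).separable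
  have hroots : (minpoly ℚ a).rootSet Kbar ⊆ (T : Set Kbar) := by
    intro b hb
    rw [Polynomial.mem_rootSet] at hb
    obtain ⟨σ, hσ⟩ := minpoly.exists_algEquiv_of_root' ha hb.2
    rw [← hσ]
    exact hT σ
  have hcard : Fintype.card ((minpoly ℚ a).rootSet Kbar) = (minpoly ℚ a).natDegree :=
    Polynomial.card_rootSet_eq_natDegree hsep (IsAlgClosed.splits _)
  rw [← hcard]
  have : Fintype.card ((minpoly ℚ a).rootSet Kbar) = ((minpoly ℚ a).rootSet Kbar).toFinset.card :=
    (Set.toFinset_card _).symm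
  rw [this]
  apply Finset.card_le_card
  intro b hb
  rw [Set.mem_toFinset] at hb
  exact hroots hb

/-- **Bounded degree of the values on a Galois-stable finite set of places.** -/
theorem natDegree_minpoly_tval_le (hfix : ∀ σ : Kbar ≃ₐ[ℚ] Kbar, gal σ • t = t)
    (T : Finset (Place Kbar (FF N))) (hTinf : ∀ v ∈ T, v ≠ inftyPlace N)
    (hTσ : ∀ (σ : Kbar ≃ₐ[ℚ] Kbar), ∀ v ∈ T, gal σ • v ∈ T)
    (v : Place Kbar (FF N)) (hv : v ∈ T) :
    (minpoly ℚ (tval ht hreg v (hTinf v hv))).natDegree ≤ T.card := by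
  classical
  set T' : Finset Kbar := T.attach.image fun w => tval ht hreg w.1 (hTinf w.1 w.2) with hT'
  have h1 : (minpoly ℚ (tval ht hreg v (hTinf v hv))).natDegree ≤ T'.card := by
    apply natDegree_minpoly_le
    intro σ
    rw [← tval_smul ht hreg hfix σ v (hTinf v hv), hT', Finset.mem_image]
    exact ⟨⟨gal σ • v, hTσ σ v hv⟩, Finset.mem_attach _ _, rfl⟩
  exact h1.trans (Finset.card_image_le.trans (by rw [Finset.card_attach]))

end Fermat.Agent.MW.NCA61.Values
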