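/-
Programme MW (S17), brick NC-A (NORTH-C(a)), FINAL FILE: the two halves put together for
`F = FF N = ℚbar · F₀`, base place `∞` = the `q`-expansion place.

* `redDeg N x`, `redDiv N x`: the reduced representative `D_x` of `x : JZero N` relative to `∞`
  (helper85's `NorthA85.Reduced`, instantiated with Riemann's inequality from `RR.RRMain`);
  `represents_redDiv`, `redDeg_le_genus`, `redDiv_nonneg`, `redDiv_infty`, `card_support_redDiv_le`,
  `redDiv_injective`, `smul_redDiv`;
* `Coordinate N`: a Galois-fixed `t : FF N`, generator (`IsGen`), regular away from `∞`;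
  `nonempty_coordinate`;
* `Coordinate.val c v hv : ℚbar`: the value `t(v)` at `v ≠ ∞`, `Coordinate.val_smul`,
  `Coordinate.finite_fibre`;
* **`natDegree_minpoly_val_le_genus`**: for `x` fixed by `Gal(ℚbar/ℚ)` and `v ∈ supp D_x`:
  `[ℚ(t(v)) : ℚ] ≤ g`;
* **`finite_of_val_mem`**: for a finite `T ⊆ ℚbar`, only finitely many `x : JZero N` have all the
  values `t(v)`, `v ∈ supp D_x`, in `T`.
-/
import Mathlib
import Fermat.Agent.MW.NCA61.Descent
import Fermat.Agent.MW.NCA61.Values
import Fermat.Agent.MW.NorthA85.Reduced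
import Fermat.Agent.RR.LHypGen

set_option autoImplicit false
set_option linter.unusedSectionVars false

open AlgebraicCurve ModularCurve Module
open Fermat.Agent.X0 Fermat.Agent.X0.FF

noncomputable section

namespace Fermat.Agent.MW.NCA61.Final

open Fermat.Agent.MW.NCA61.InfPlace Fermat.Agent.MW.NCA61.Descent Fermat.Agent.MW.NCA61.Values
open Fermat.Agent.RR.LSpace

variable (N : ℕ) [NeZero N]

local notation "gal" => arithmeticGalois (modularFunctionFieldFull N)

/-! ### Riemann's inequality for `FF N` -/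

theorem lHyp : LHyp Kbar (FF N) :=
  Fermat.Agent.RR.LHypGen.lHyp_of_isGen (HasCanDivInst.isGen N)

/-- **Riemann's inequality** `l(D) ≥ deg D + 1 - g` with the Prelude genus. -/
theorem riemann (D : Divisor Kbar (FF N)) :
    Divisor.degree D + 1 - (genus Kbar (FF N) : ℕ) ≤
      (finrank Kbar (riemannRochSpace D) : ℤ) := by
  have hx := HasCanDivInst.isGen N
  have hω₀ := D_ne_zero hx
  have hW := fun v => canonicalDivisorOf_apply (K := Kbar) (F := FF N) hω₀ v
  have h0 := Fermat.Agent.RR.RRMain.riemann_roch_genus hx hω₀ hW D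
  have : (0 : ℤ) ≤ finrank Kbar (riemannRochSpace (canonicalDivisorOf hω₀ - D)) :=
    Int.natCast_nonneg _
  omega

/-! ### The reduced representative -/

/-- `r(x)`: the minimal `r` with `l(x + r∞) ≥ 1`. -/
def redDeg (x : JZero N) : ℕ :=
  Fermat.Agent.MW.NorthA85.redDeg (inftyPlace N) (lHyp N) (genus Kbar (FF N)) (riemann N) x

/-- `D_x`: the unique effective divisor of degree `r(x)` with `x = [D_x - r(x)∞]`. -/
def redDiv (x : JZero N) : Divisor Kbar (FF N) :=
  Fermat.Agent.MW.NorthA85.redDiv (inftyPlace N) (lHyp N) (genus Kbar (FF N)) (riemann N) x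

theorem represents_redDiv (x : JZero N) :
    Fermat.Agent.MW.NorthA85.Represents (inftyPlace N) x (redDeg N x) (redDiv N x) :=
  Fermat.Agent.MW.NorthA85.represents_redDiv (lHyp N) _ (riemann N) x

theorem redDeg_le_genus (x : JZero N) : redDeg N x ≤ genus Kbar (FF N) :=
  Fermat.Agent.MW.NorthA85.redDeg_le_genus (lHyp N) _ (riemann N) x

theorem redDiv_nonneg (x : JZero N) : 0 ≤ redDiv N x := (represents_redDiv N x).nonneg

theorem degree_redDiv (x : JZero N) : Divisor.degree (redDiv N x) = redDeg N x :=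
  (represents_redDiv N x).degree_eq

/-- `∞ ∉ supp D_x`. -/
theorem redDiv_infty (x : JZero N) : redDiv N x (inftyPlace N) = 0 :=
  Fermat.Agent.MW.NorthA85.redDiv_apply_oo (lHyp N) _ (riemann N) x

theorem ne_infty_of_mem_support {x : JZero N} {v : Place Kbar (FF N)}
    (hv : v ∈ (redDiv N x).support) : v ≠ inftyPlace N := by
  rintro rfl
  exact (Finsupp.mem_support_iff.mp hv) (redDiv_infty N x)

theorem card_support_redDiv_le (x : JZero N) :
    (redDiv N x).support.card ≤ genus Kbar (FF N) :=
  Fermat.Agent.MW.NorthA85.card_support_redDiv_le (lHyp N) _ (riemann N) x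

/-- `x` is determined by `D_x`. -/
theorem redDiv_injective : Function.Injective (redDiv N) := fun _ _ h =>
  Fermat.Agent.MW.NorthA85.eq_of_redDiv_eq (lHyp N) _ (riemann N) h

/-- **`D_x` is Galois-stable** for `x` fixed by `σ`. -/
theorem smul_redDiv (σ : Kbar ≃ₐ[ℚ] Kbar) {x : JZero N} (hx : σ • x = x) :
    gal σ • redDiv N x = redDiv N x :=
  Fermat.Agent.MW.NorthA85.smul_redDiv (lHyp N) _ (riemann N) (gal σ) (smul_inftyPlace N σ) hx

theorem smul_mem_support_redDiv (σ : Kbar ≃ₐ[ℚ] Kbar) {x : JZero N} (hx : σ • x = x)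
    {v : Place Kbar (FF N)} (hv : v ∈ (redDiv N x).support) :
    gal σ • v ∈ (redDiv N x).support :=
  Fermat.Agent.MW.NorthA85.smul_mem_support_redDiv (lHyp N) _ (riemann N) (gal σ)
    (smul_inftyPlace N σ) hx hv

/-- Only finitely many classes have `D_x` supported in a given finite set of places. -/
theorem finite_setOf_support_redDiv_subset (S : Finset (Place Kbar (FF N))) :
    {x : JZero N | (redDiv N x).support ⊆ S}.Finite :=
  Fermat.Agent.MW.NorthA85.finite_setOf_support_redDiv_subset (lHyp N) _ (riemann N) S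

/-! ### Coordinates -/

/-- A **coordinate**: a function `t ∈ FF N` fixed by `Gal(ℚbar/ℚ)` (i.e. in `F₀ = ℚ(X₀(N))`),
generating (`FF N` finite separable over `ℚbar(t)`), whose only pole is `∞`. -/
structure Coordinate where
  t : FF N
  fixed : ∀ σ : Kbar ≃ₐ[ℚ] Kbar, gal σ • t = t
  isGen : IsGen Kbar t
  regular : ∀ v : Place Kbar (FF N), v ≠ inftyPlace N → 0 ≤ v.ord t

theorem nonempty_coordinate : Nonempty (Coordinate N) := by
  obtain ⟨t, h1, h2, h3⟩ := exists_coordinate N
  exact ⟨⟨t, h1, h2, h3⟩⟩

variable {N}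

namespace Coordinate

variable (c : Coordinate N)

/-- The value `t(v)` of the coordinate at a place `v ≠ ∞`. -/
def val (v : Place Kbar (FF N)) (hv : v ≠ inftyPlace N) : Kbar :=
  tval c.isGen c.regular v hv

theorem val_eq_iff (v : Place Kbar (FF N)) (hv : v ≠ inftyPlace N) (a : Kbar) :
    c.val v hv = a ↔ 0 < v.ord (c.t - algebraMap Kbar (FF N) a) :=
  tval_eq_iff c.isGen c.regular v hv a

/-- `t(σ v) = σ (t(v))`. -/
theorem val_smul (σ : Kbar ≃ₐ[ℚ] Kbar) (v : Place Kbar (FF N)) (hv : v ≠ inftyPlace N) :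
    c.val (gal σ • v) (smul_ne_infty σ hv) = σ (c.val v hv) :=
  tval_smul c.isGen c.regular c.fixed σ v hv

theorem finite_fibre (a : Kbar) :
    {v : Place Kbar (FF N) | ∃ hv : v ≠ inftyPlace N, c.val v hv = a}.Finite :=
  Values.finite_fibre c.isGen c.regular a

end Coordinate

variable (c : Coordinate N)

/-- **Bounded degree**: for a Galois-fixed class `x`, the values of the coordinate at the points
of `D_x` have degree at most `g` over `ℚ`. -/
theorem natDegree_minpoly_val_le_genus {x : JZero N}
    (hx : ∀ σ : Kbar ≃ₐ[ℚ] Kbar, σ • x = x) (v : Place Kbar (FF N))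
    (hv : v ∈ (redDiv N x).support) :
    (minpoly ℚ (c.val v (ne_infty_of_mem_support N hv))).natDegree ≤ genus Kbar (FF N) :=
  (natDegree_minpoly_tval_le c.isGen c.regular c.fixed (redDiv N x).support
    (fun _ hw => ne_infty_of_mem_support N hw)
    (fun σ _ hw => smul_mem_support_redDiv N σ (hx σ) hw) v hv).trans
    (card_support_redDiv_le N x)

/-- **Finiteness**: only finitely many classes `x` have all the values of the coordinate at the
points of `D_x` in a given finite set. -/
theorem finite_of_val_mem {T : Set Kbar} (hT : T.Finite) :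
    {x : JZero N | ∀ (v : Place Kbar (FF N)) (hv : v ∈ (redDiv N x).support),
      c.val v (ne_infty_of_mem_support N hv) ∈ T}.Finite := by
  classical
  have hS : (⋃ a ∈ T, {v : Place Kbar (FF N) | ∃ hv : v ≠ inftyPlace N, c.val v hv = a}).Finite :=
    hT.biUnion fun a _ => c.finite_fibre a
  refine (finite_setOf_support_redDiv_subset N hS.toFinset).subset ?_
  intro x hx v hv
  rw [Set.Finite.mem_toFinset, Set.mem_iUnion₂]
  exact ⟨_, hx v hv, ne_infty_of_mem_support N hv, rfl⟩

end Fermat.Agent.MW.NCA61.Final
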