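/-
Programme MW (S17), brick NC-A, helper61: EXTRAS on the coordinate `t` (consumers: BR+ `ModelX0`
of helper53, NORTH-asm of helper2).

* `Coordinate.ord_infty_neg`: `ord_∞ t < 0`;
* `Coordinate.ord_neg_iff`: `ord_v t < 0 ↔ v = ∞` (the only pole of `t` is `∞`);
* `Coordinate.valT : Place ℚbar (FF N) → ℚbar`, the TOTAL value function (junk value `0` at `∞`),
  `valT_of_ne`, `valT_smul` (equivariance off `∞`), `finite_fibre_valT` (finite fibres off `∞`),
  `valT_eq_iff`.
-/
import Mathlib
import Fermat.Agent.MW.NCA61.Final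

set_option autoImplicit false
set_option linter.unusedSectionVars false
set_option linter.style.haveILetI false

open AlgebraicCurve ModularCurve Module
open Fermat.Agent.X0 Fermat.Agent.X0.FF

noncomputable section

namespace Fermat.Agent.MW.NCA61.Final

open Fermat.Agent.MW.NCA61.InfPlace Fermat.Agent.MW.NCA61.Values

variable {N : ℕ} [NeZero N]

local notation "gal" => arithmeticGalois (modularFunctionFieldFull N)

namespace Coordinate

variable (c : Coordinate N)

/-- **`t` has a pole at `∞`.** -/
theorem ord_infty_neg : (inftyPlace N).ord c.t < 0 := by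
  by_contra hcon
  have hnone : ∀ v : Place Kbar (FF N), ¬ v.ord c.t < 0 := by
    intro v hv
    by_cases h : v = inftyPlace N
    · exact hcon (h ▸ hv)
    · exact absurd (c.regular v h) (not_le.mpr hv)
  have hsum := Fermat.Agent.X0.FF.sum_ord_poles c.isGen
  have h0 : ∑ᶠ (v : Place Kbar (FF N)) (_ : v.ord c.t < 0), -v.ord c.t = 0 := by
    apply finsum_eq_zero_of_forall_eq_zero
    intro v
    haveI : IsEmpty (v.ord c.t < 0) := ⟨hnone v⟩
    exact finsum_of_isEmpty _
  rw [h0] at hsum
  haveI := c.isGen.finiteDimensional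
  have hpos : 0 < Module.finrank (IntermediateField.adjoin Kbar {c.t}) (FF N) :=
    Module.finrank_pos
  omega

/-- **The only pole of `t` is `∞`.** -/
theorem ord_neg_iff (v : Place Kbar (FF N)) : v.ord c.t < 0 ↔ v = inftyPlace N := by
  constructor
  · intro hv
    by_contra h
    exact absurd (c.regular v h) (not_le.mpr hv)
  · rintro rfl
    exact c.ord_infty_neg

theorem t_mem_iff (v : Place Kbar (FF N)) : 0 ≤ v.ord c.t ↔ v ≠ inftyPlace N := by
  rw [Ne, ← c.ord_neg_iff v, not_lt]

/-- **The total value function** `v ↦ t(v)` (junk value `0` at `∞`). -/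
def valT (v : Place Kbar (FF N)) : Kbar := by
  classical
  exact if hv : v = inftyPlace N then 0 else c.val v hv

theorem valT_of_ne {v : Place Kbar (FF N)} (hv : v ≠ inftyPlace N) : c.valT v = c.val v hv := by
  unfold valT
  rw [dif_neg hv]

theorem valT_infty : c.valT (inftyPlace N) = 0 := by
  unfold valT
  rw [dif_pos rfl]

theorem valT_eq_iff {v : Place Kbar (FF N)} (hv : v ≠ inftyPlace N) (a : Kbar) :
    c.valT v = a ↔ 0 < v.ord (c.t - algebraMap Kbar (FF N) a) := by
  rw [c.valT_of_ne hv, c.val_eq_iff]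

/-- equivariance off `∞`, in the shape of `NorthAsm2.north_of_bound`. -/
theorem valT_smul (σ : Kbar ≃ₐ[ℚ] Kbar) (v : Place Kbar (FF N)) (hv : v ≠ inftyPlace N) :
    c.valT (gal σ • v) = σ (c.valT v) := by
  rw [c.valT_of_ne hv, c.valT_of_ne (smul_ne_infty σ hv), c.val_smul]

/-- finite fibres off `∞`, in the shape of `NorthAsm2.north_of_bound`. -/
theorem finite_fibre_valT (a : Kbar) :
    {v : Place Kbar (FF N) | v ≠ inftyPlace N ∧ c.valT v = a}.Finite := by
  refine (c.finite_fibre a).subset ?_
  rintro v ⟨hv, h⟩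
  exact ⟨hv, by rw [← c.valT_of_ne hv]; exact h⟩

end Coordinate

end Fermat.Agent.MW.NCA61.Final
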