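/-
Programme MW (S17), layer D plug, helper61: `NorthAsm2.north_of_bound` (helper2) with all the NC-A
inputs filled in.  What remains as a hypothesis is exactly the NC-B bound
`h(t(P)) ≤ C · h(x) + C'` for `P ∈ supp D_x`, `x` rational.
-/
import Mathlib
import Fermat.Agent.MW.NCA61.Extras
import Fermat.Agent.MW.NorthAsm2

set_option autoImplicit false
set_option linter.unusedSectionVars false

open AlgebraicCurve ModularCurve Module
open Fermat.Agent.X0 Fermat.Agent.X0.FF

noncomputable section

namespace Fermat.Agent.MW.NCA61.North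

open Fermat.Agent.MW.NCA61.InfPlace Fermat.Agent.MW.NCA61.Final Fermat.Agent.MW73
open Fermat.Agent.MW.AbsHeightOne10

attribute [local instance] Fermat.Agent.MW.NorthAsm2.isAlgebraic_rat_Qb
  Fermat.Agent.MW.NorthAsm2.normal_rat_Qb

variable (N : ℕ) [NeZero N]

/-- **NORTH from the NC-B bound**: the field `north` of `MW.HeightData N`, for any height `h` on
`JZero N` such that the values of a coordinate `c` at the points of the reduced divisor `D_x` of a
rational class `x` have height `≤ C · h(x) + C'`. -/
theorem north_of_bound' (c : Coordinate N) (h : JZero N → ℝ) (C C' : ℝ) (hC : 0 ≤ C)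
    (hbound : ∀ x : JRat N, ∀ P ∈ (redDiv N (x : JZero N)).support,
      absLogHeightOne (c.valT P) ≤ C * h (x : JZero N) + C')
    (B : ℝ) : {x : JRat N | h (x : JZero N) ≤ B}.Finite :=
  Fermat.Agent.MW.NorthAsm2.north_of_bound N (lHyp N) (genus Kbar (FF N)) (riemann N)
    (inftyPlace N) (smul_inftyPlace N) c.valT c.finite_fibre_valT c.valT_smul h C C' hC hbound B

end Fermat.Agent.MW.NCA61.North
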